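/-
GATE-H (S19) / node N1 DESCENT, part 1 (helper71): **Artin–Dedekind for equivariant functions.**

`K` a field, `G` a group acting on `K` by ring automorphisms and on a set `M`; a function
`f : M → K` is `Γ`-equivariant (`Γ ≤ G`) if `f (σ • x) = σ • f x` for `σ ∈ Γ`.

* `sum_smul_eq_zero_of_equivariant` : a linear relation among equivariant functions may be
  conjugated: `∑ c i • b i = 0 → ∑ (σ • c i) • b i = 0`;
* `linearIndependent_of_fixed` : equivariant functions that are linearly independent over the
  `Γ`-fixed elements of `K` are linearly independent over `K`;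
* `smul_coeff_eq_of_equivariant` : the coefficients of an equivariant function in a `K`-independent
  equivariant family are `Γ`-fixed;
* `linearIndependent_tensor` : `(x, y) ↦ b i x * b j y` is `K`-independent if `b` is;
* `span_eq_top_of_separates` : a multiplicatively closed set of functions on a finite set containing
  `1` and separating points spans all functions (Lagrange interpolation).
-/
import Mathlib

set_option autoImplicit false

open scoped BigOperators

namespace Fermat.Agent.GH.N1

section Equivariant

variable {K : Type*} [Field K] {G : Type*} [Group G] [MulSemiringAction G K]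
variable {M : Type*} [MulAction G M]

/-- `f : M → K` is `Γ`-equivariant. -/
def IsEquivar (Γ : Subgroup G) (f : M → K) : Prop := ∀ σ ∈ Γ, ∀ x : M, f (σ • x) = σ • f x

theorem IsEquivar.mono {Γ Γ' : Subgroup G} (h : Γ ≤ Γ') {f : M → K} (hf : IsEquivar Γ' f) :
    IsEquivar Γ f := fun σ hσ x => hf σ (h hσ) x

theorem isEquivar_zero (Γ : Subgroup G) : IsEquivar Γ (0 : M → K) := fun σ _ _ => by
  simp

theorem isEquivar_one (Γ : Subgroup G) : IsEquivar Γ (1 : M → K) := fun σ _ _ => by
  simp

theorem IsEquivar.add {Γ : Subgroup G} {f g : M → K} (hf : IsEquivar Γ f) (hg : IsEquivar Γ g) :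
    IsEquivar Γ (f + g) := fun σ hσ x => by
  simp only [Pi.add_apply, smul_add, hf σ hσ x, hg σ hσ x]

theorem IsEquivar.neg {Γ : Subgroup G} {f : M → K} (hf : IsEquivar Γ f) :
    IsEquivar Γ (-f) := fun σ hσ x => by
  simp only [Pi.neg_apply, smul_neg, hf σ hσ x]

theorem IsEquivar.mul {Γ : Subgroup G} {f g : M → K} (hf : IsEquivar Γ f) (hg : IsEquivar Γ g) :
    IsEquivar Γ (f * g) := fun σ hσ x => by
  simp only [Pi.mul_apply, smul_mul', hf σ hσ x, hg σ hσ x]

/-- scaling by a fixed element preserves equivariance -/
theorem IsEquivar.smul_fixed {Γ : Subgroup G} {f : M → K} (hf : IsEquivar Γ f) {c : K}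
    (hc : ∀ σ ∈ Γ, σ • c = c) : IsEquivar Γ (c • f) := fun σ hσ x => by
  simp only [Pi.smul_apply, smul_eq_mul, smul_mul', hf σ hσ x, hc σ hσ]

theorem IsEquivar.sum {Γ : Subgroup G} {ι : Type*} (s : Finset ι) {f : ι → M → K}
    (hf : ∀ i ∈ s, IsEquivar Γ (f i)) : IsEquivar Γ (∑ i ∈ s, f i) := by
  classical
  induction s using Finset.induction_on with
  | empty => simpa using isEquivar_zero Γ
  | insert a t ha ih =>
    rw [Finset.sum_insert ha]
    exact (hf a (Finset.mem_insert_self a t)).add
      (ih fun i hi => hf i (Finset.mem_insert_of_mem hi))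

/-- A linear relation among `Γ`-equivariant functions may be conjugated by `σ ∈ Γ`. -/
theorem sum_smul_eq_zero_of_equivariant {Γ : Subgroup G} {ι : Type*} (s : Finset ι)
    (b : ι → M → K) (hb : ∀ i ∈ s, IsEquivar Γ (b i)) (c : ι → K)
    (h : ∑ i ∈ s, c i • b i = 0) {σ : G} (hσ : σ ∈ Γ) : ∑ i ∈ s, (σ • c i) • b i = 0 := by
  funext y
  have hy : y = σ • (σ⁻¹ • y) := by rw [smul_inv_smul]
  have h1 := congrFun h (σ⁻¹ • y)
  simp only [Finset.sum_apply, Pi.smul_apply, smul_eq_mul, Pi.zero_apply] at h1 ⊢
  have h2 := congrArg (fun a : K => σ • a) h1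
  simp only [Finset.smul_sum, smul_mul', smul_zero] at h2
  rw [← h2]
  refine Finset.sum_congr rfl fun i hi => ?_
  rw [← hb i hi σ hσ, ← hy]

/-- **Artin–Dedekind**: `Γ`-equivariant functions which are linearly independent over the
`Γ`-fixed elements of `K` are linearly independent over `K`. -/
theorem linearIndependent_of_fixed (Γ : Subgroup G) {ι : Type*} (b : ι → M → K)
    (hb : ∀ i, IsEquivar Γ (b i))
    (h0 : ∀ (s : Finset ι) (d : ι → K), (∀ i, ∀ σ ∈ Γ, σ • d i = d i) →
      ∑ i ∈ s, d i • b i = 0 → ∀ i ∈ s, d i = 0) :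
    LinearIndependent K b := by
  classical
  rw [linearIndependent_iff']
  intro s
  induction s using Finset.induction_on with
  | empty => intro g _ i hi; exact absurd hi (Finset.notMem_empty i)
  | insert a t ha ih =>
    intro g hg
    by_cases hga : g a = 0
    · have h1 : ∑ i ∈ t, g i • b i = 0 := by
        rw [Finset.sum_insert ha, hga, zero_smul, zero_add] at hg
        exact hg
      intro i hi
      rcases Finset.mem_insert.1 hi with rfl | hi
      · exact hga
      · exact ih g h1 i hi
    · exfalso
      -- normalise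
      set d : ι → K := fun i => (g a)⁻¹ * g i with hd
      have hda : d a = 1 := inv_mul_cancel₀ hga
      have hdrel : ∑ i ∈ insert a t, d i • b i = 0 := by
        have : ∑ i ∈ insert a t, d i • b i = (g a)⁻¹ • ∑ i ∈ insert a t, g i • b i := by
          rw [Finset.smul_sum]
          refine Finset.sum_congr rfl fun i _ => ?_
          rw [hd, mul_smul]
        rw [this, hg, smul_zero]
      -- all coefficients are fixed
      have hfix : ∀ i ∈ insert a t, ∀ σ ∈ Γ, σ • d i = d i := by
        intro i hi σ hσ
        have h1 := sum_smul_eq_zero_of_equivariant (insert a t) b (fun i _ => hb i) d hdrel hσ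
        have h2 : ∑ i ∈ insert a t, (σ • d i - d i) • b i = 0 := by
          simp only [sub_smul, Finset.sum_sub_distrib, h1, hdrel, sub_zero]
        rw [Finset.sum_insert ha, hda, smul_one, sub_self, zero_smul, zero_add] at h2
        rcases Finset.mem_insert.1 hi with rfl | hi
        · rw [hda, smul_one]
        · exact sub_eq_zero.1 (ih _ h2 i hi)
      -- extend by zero outside
      set d' : ι → K := fun i => if i ∈ insert a t then d i else 0 with hd'
      have h3 : ∑ i ∈ insert a t, d' i • b i = 0 := by
        rw [← hdrel]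
        refine Finset.sum_congr rfl fun i hi => ?_
        simp only [hd', if_pos hi]
      have h4 := h0 (insert a t) d' (fun i σ hσ => by
        by_cases hi : i ∈ insert a t
        · simp only [hd', if_pos hi]
          exact hfix i hi σ hσ
        · simp only [hd', if_neg hi, smul_zero]) h3 a (Finset.mem_insert_self a t)
      simp only [hd', if_pos (Finset.mem_insert_self a t), hda] at h4
      exact one_ne_zero h4

/-- The coefficients of a `Γ`-equivariant function in a `K`-independent `Γ`-equivariant family are
`Γ`-fixed. -/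
theorem smul_coeff_eq_of_equivariant {Γ : Subgroup G} {ι : Type*} (s : Finset ι)
    (b : ι → M → K) (hb : ∀ i, IsEquivar Γ (b i)) (hli : LinearIndependent K b) (c : ι → K)
    (hf : IsEquivar Γ (∑ i ∈ s, c i • b i)) {σ : G} (hσ : σ ∈ Γ) {i : ι} (hi : i ∈ s) :
    σ • c i = c i := by
  have h1 : ∑ j ∈ s, (σ • c j - c j) • b j = 0 := by
    funext y
    have hy : y = σ • (σ⁻¹ • y) := by rw [smul_inv_smul]
    have h2 := hf σ hσ (σ⁻¹ • y)
    rw [← hy] at h2
    simp only [Finset.sum_apply, Pi.smul_apply, smul_eq_mul, Pi.zero_apply, Finset.smul_sum,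
      smul_mul', sub_mul, Finset.sum_sub_distrib] at h2 ⊢
    rw [sub_eq_zero, h2]
    refine Finset.sum_congr rfl fun j _ => ?_
    rw [← hb j σ hσ, ← hy]
  exact sub_eq_zero.1 (linearIndependent_iff'.1 hli s _ h1 i hi)

end Equivariant

section Tensor

variable {K : Type*} [Field K] {M N : Type*}

/-- `(x, y) ↦ b i x * b' j y` is `K`-linearly independent if `b` and `b'` are. -/
theorem linearIndependent_tensor {ι ι' : Type*} (b : ι → M → K) (b' : ι' → N → K)
    (hb : LinearIndependent K b) (hb' : LinearIndependent K b') :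
    LinearIndependent K (fun p : ι × ι' => fun z : M × N => b p.1 z.1 * b' p.2 z.2) := by
  classical
  rw [linearIndependent_iff']
  intro s g hg p hp
  -- enlarge `s` to a product
  set s1 := s.image Prod.fst
  set s2 := s.image Prod.snd
  set g' : ι × ι' → K := fun q => if q ∈ s then g q else 0 with hg'
  have hsub : s ⊆ s1 ×ˢ s2 := fun q hq =>
    Finset.mem_product.2 ⟨Finset.mem_image_of_mem _ hq, Finset.mem_image_of_mem _ hq⟩
  have h1 : ∑ q ∈ s1 ×ˢ s2, g' q • (fun z : M × N => b q.1 z.1 * b' q.2 z.2) = 0 := by
    rw [← hg]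
    symm
    refine Finset.sum_subset_zero_on_sdiff hsub (fun q hq => ?_) (fun q hq => ?_)
    · simp only [hg', if_neg (Finset.mem_sdiff.1 hq).2, zero_smul]
    · simp only [hg', if_pos hq]
  -- fix `y`, use independence of `b`
  have h2 : ∀ y : N, ∀ i ∈ s1, ∑ j ∈ s2, g' (i, j) * b' j y = 0 := by
    intro y
    have h3 : ∑ i ∈ s1, (∑ j ∈ s2, g' (i, j) * b' j y) • b i = 0 := by
      funext x
      have h4 := congrFun h1 (x, y)
      rw [Finset.sum_product] at h4
      simp only [Finset.sum_apply, Pi.smul_apply, smul_eq_mul, Pi.zero_apply] at h4 ⊢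
      rw [← h4]
      refine Finset.sum_congr rfl fun i _ => ?_
      rw [Finset.sum_mul]
      refine Finset.sum_congr rfl fun j _ => ?_
      ring
    exact linearIndependent_iff'.1 hb s1 _ h3
  have h5 : ∀ i ∈ s1, ∀ j ∈ s2, g' (i, j) = 0 := by
    intro i hi
    have h6 : ∑ j ∈ s2, g' (i, j) • b' j = 0 := by
      funext y
      simpa using h2 y i hi
    exact linearIndependent_iff'.1 hb' s2 _ h6
  have h7 := h5 p.1 (Finset.mem_image_of_mem _ hp) p.2 (Finset.mem_image_of_mem _ hp)
  simp only [hg', if_pos hp] at h7
  exact h7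

end Tensor

section Interpolation

variable {K : Type*} [Field K] {M : Type*} [Finite M]

/-- **Lagrange interpolation**: a multiplicatively closed set of functions on a finite set which
contains `1` and separates points spans all functions. -/
theorem span_eq_top_of_separates (S : Submonoid (M → K))
    (hsep : ∀ x y : M, x ≠ y → ∃ f ∈ S, f x ≠ f y) :
    Submodule.span K (S : Set (M → K)) = ⊤ := by
  classical
  have := Fintype.ofFinite M
  -- the span is a subalgebra
  have hspan : (Algebra.adjoin K (S : Set (M → K))).toSubmodule =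
      Submodule.span K (S : Set (M → K)) := by
    rw [Algebra.adjoin_eq_span, Submonoid.closure_eq]
  rw [← hspan, eq_top_iff]
  intro f _
  set 𝒜 := Algebra.adjoin K (S : Set (M → K))
  -- the delta functions
  have hδ : ∀ x : M, Pi.single x (1 : K) ∈ 𝒜 := by
    intro x
    choose! φ hφS hφ using hsep x
    have h1 : Pi.single x (1 : K) =
        ∏ y ∈ Finset.univ.erase x, ((φ y x - φ y y)⁻¹ • (φ y - algebraMap K (M → K) (φ y y))) := by
      funext z
      rw [Finset.prod_apply]
      by_cases hz : z = x
      · subst hz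
        rw [Pi.single_eq_same]
        symm
        refine Finset.prod_eq_one fun y hy => ?_
        have hy' : z ≠ y := fun h => (Finset.mem_erase.1 hy).1 h.symm
        simp only [Pi.smul_apply, Pi.sub_apply, Pi.algebraMap_apply, Algebra.algebraMap_self,
          RingHom.id_apply, smul_eq_mul]
        exact inv_mul_cancel₀ (sub_ne_zero.2 (hφ y hy'))
      · rw [Pi.single_eq_of_ne hz]
        symm
        refine Finset.prod_eq_zero (Finset.mem_erase.2 ⟨hz, Finset.mem_univ z⟩) ?_
        simp
    rw [h1]
    refine Subalgebra.prod_mem _ fun y hy => ?_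
    have hy' : x ≠ y := fun h => (Finset.mem_erase.1 hy).1 h.symm
    exact Subalgebra.smul_mem _ (Subalgebra.sub_mem _ (Algebra.subset_adjoin (hφS y hy'))
      (Subalgebra.algebraMap_mem _ _)) _
  have h2 : f = ∑ x, f x • Pi.single x (1 : K) := by
    funext z
    simp [Finset.sum_apply, Pi.single_apply]
  rw [h2]
  exact Subalgebra.sum_mem _ fun x _ => Subalgebra.smul_mem _ (hδ x) _

end Interpolation

end Fermat.Agent.GH.N1
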