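/-
GATE-H (S19) / node N1 DESCENT, part 2 (helper71): **descent of independence modulo `ℓ`.**

`W ⊆ K` a subring, `D ≤ G` acting on `K`, `HO` a `W`-stable, `D`-stable additive group of functions
`M → K`.  If `W/ℓ` is a field (W3) whose `D`-invariants are `𝔽_ℓ` (W5), and `h j ∈ HO` are
`D`-equivariant functions which are independent modulo `ℓ` over `ℤ` (saturation), then they are
independent modulo `ℓ` over `W`:  `∑ w j • h j ∈ ℓ HO` with `w j ∈ W` forces `w j ∈ ℓ W`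
(`divL_of_sum_mem`).  This is Artin–Dedekind/Galois descent for the semilinear action of `D` on
`HO / ℓ HO`, written with divisibility predicates inside `K`.
-/
import Mathlib
import Fermat.Agent.GH.N1.Indep

set_option autoImplicit false

open scoped BigOperators

namespace Fermat.Agent.GH.N1

section ModL

variable {K : Type*} [Field K] {G : Type*} [Group G] [MulSemiringAction G K]
variable {M : Type*} [MulAction G M]

/-- `w ∈ ℓ W` -/
def DivL (W : Subring K) (ℓ : ℕ) (w : K) : Prop := ∃ u ∈ W, w = (ℓ : K) * u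

/-- `f ∈ ℓ HO` -/
def DivLH (HO : Subring (M → K)) (ℓ : ℕ) (f : M → K) : Prop := ∃ g ∈ HO, f = (ℓ : K) • g

/-- conjugation of functions: `(σ ⋆ f) x = σ • f (σ⁻¹ • x)` -/
def conjFun (σ : G) (f : M → K) : M → K := fun x => σ • f (σ⁻¹ • x)

theorem smul_natCast_eq (σ : G) (n : ℕ) : σ • (n : K) = (n : K) :=
  map_natCast (MulSemiringAction.toRingHom G K σ) n

theorem smul_intCast_eq (σ : G) (n : ℤ) : σ • (n : K) = (n : K) :=
  map_intCast (MulSemiringAction.toRingHom G K σ) n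

theorem conjFun_of_isEquivar {Γ : Subgroup G} {f : M → K} (hf : IsEquivar Γ f) {σ : G}
    (hσ : σ ∈ Γ) : conjFun σ f = f := by
  funext x
  show σ • f (σ⁻¹ • x) = f x
  rw [← hf σ hσ, smul_inv_smul]

theorem conjFun_sum_smul {ι : Type*} (s : Finset ι) (σ : G) (w : ι → K) (h : ι → M → K) :
    conjFun σ (∑ j ∈ s, w j • h j) = ∑ j ∈ s, (σ • w j) • conjFun σ (h j) := by
  funext x
  simp only [conjFun, Finset.sum_apply, Pi.smul_apply, smul_eq_mul, Finset.smul_sum, smul_mul']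

theorem conjFun_smul (σ : G) (c : K) (f : M → K) :
    conjFun σ (c • f) = (σ • c) • conjFun σ f := by
  funext x
  simp only [conjFun, Pi.smul_apply, smul_eq_mul, smul_mul']

variable {W : Subring K} {ℓ : ℕ} {HO : Subring (M → K)}

theorem DivL.mem {w : K} (h : DivL W ℓ w) : w ∈ W := by
  obtain ⟨u, hu, rfl⟩ := h
  exact W.mul_mem (natCast_mem W ℓ) hu

theorem divL_zero : DivL W ℓ 0 := ⟨0, W.zero_mem, by rw [mul_zero]⟩

theorem DivL.add {a b : K} (ha : DivL W ℓ a) (hb : DivL W ℓ b) : DivL W ℓ (a + b) := by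
  obtain ⟨u, hu, rfl⟩ := ha
  obtain ⟨v, hv, rfl⟩ := hb
  exact ⟨u + v, W.add_mem hu hv, by rw [mul_add]⟩

theorem DivL.sub {a b : K} (ha : DivL W ℓ a) (hb : DivL W ℓ b) : DivL W ℓ (a - b) := by
  obtain ⟨u, hu, rfl⟩ := ha
  obtain ⟨v, hv, rfl⟩ := hb
  exact ⟨u - v, W.sub_mem hu hv, by rw [mul_sub]⟩

theorem DivL.mul_left {a : K} (ha : DivL W ℓ a) {v : K} (hv : v ∈ W) : DivL W ℓ (v * a) := by
  obtain ⟨u, hu, rfl⟩ := ha
  exact ⟨v * u, W.mul_mem hv hu, by ring⟩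

theorem DivL.smul {D : Subgroup G} (hW4 : ∀ σ ∈ D, ∀ w ∈ W, σ • w ∈ W) {a : K}
    (ha : DivL W ℓ a) {σ : G} (hσ : σ ∈ D) : DivL W ℓ (σ • a) := by
  obtain ⟨u, hu, rfl⟩ := ha
  exact ⟨σ • u, hW4 σ hσ u hu, by rw [smul_mul', smul_natCast_eq]⟩

theorem divL_intCast_of_dvd {z : ℤ} (hz : (ℓ : ℤ) ∣ z) : DivL W ℓ (z : K) := by
  obtain ⟨y, rfl⟩ := hz
  exact ⟨(y : K), intCast_mem W y, by push_cast; ring⟩

theorem divLH_zero : DivLH HO ℓ (0 : M → K) := ⟨0, HO.zero_mem, by rw [smul_zero]⟩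

theorem DivLH.add {f g : M → K} (hf : DivLH HO ℓ f) (hg : DivLH HO ℓ g) :
    DivLH HO ℓ (f + g) := by
  obtain ⟨u, hu, rfl⟩ := hf
  obtain ⟨v, hv, rfl⟩ := hg
  exact ⟨u + v, HO.add_mem hu hv, by rw [smul_add]⟩

theorem DivLH.sub {f g : M → K} (hf : DivLH HO ℓ f) (hg : DivLH HO ℓ g) :
    DivLH HO ℓ (f - g) := by
  obtain ⟨u, hu, rfl⟩ := hf
  obtain ⟨v, hv, rfl⟩ := hg
  exact ⟨u - v, HO.sub_mem hu hv, by rw [smul_sub]⟩

theorem DivLH.sum {ι : Type*} (s : Finset ι) {f : ι → M → K} (hf : ∀ j ∈ s, DivLH HO ℓ (f j)) :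
    DivLH HO ℓ (∑ j ∈ s, f j) := by
  classical
  induction s using Finset.induction_on with
  | empty => simpa using divLH_zero
  | insert a t ha ih =>
    rw [Finset.sum_insert ha]
    exact (hf a (Finset.mem_insert_self a t)).add
      (ih fun j hj => hf j (Finset.mem_insert_of_mem hj))

theorem DivLH.smul_mem (hH1 : ∀ w ∈ W, ∀ f ∈ HO, w • f ∈ HO) {f : M → K} (hf : DivLH HO ℓ f)
    {v : K} (hv : v ∈ W) : DivLH HO ℓ (v • f) := by
  obtain ⟨u, hu, rfl⟩ := hf
  exact ⟨v • u, hH1 v hv u hu, by rw [smul_comm]⟩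

theorem DivL.smul_mem (hH1 : ∀ w ∈ W, ∀ f ∈ HO, w • f ∈ HO) {a : K} (ha : DivL W ℓ a)
    {f : M → K} (hf : f ∈ HO) : DivLH HO ℓ (a • f) := by
  obtain ⟨u, hu, rfl⟩ := ha
  exact ⟨u • f, hH1 u hu f hf, by rw [mul_smul]⟩

theorem DivLH.conj {D : Subgroup G} (hH4 : ∀ f ∈ HO, ∀ σ ∈ D, conjFun σ f ∈ HO) {f : M → K}
    (hf : DivLH HO ℓ f) {σ : G} (hσ : σ ∈ D) : DivLH HO ℓ (conjFun σ f) := by
  obtain ⟨u, hu, rfl⟩ := hf
  exact ⟨conjFun σ u, hH4 u hu σ hσ, by rw [conjFun_smul, smul_natCast_eq]⟩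

/-- **Descent of independence modulo `ℓ`** (Lemma A of N1). -/
theorem divL_of_sum_mem {ι : Type*} [Fintype ι] (D : Subgroup G)
    (hW3 : ∀ w ∈ W, ¬ DivL W ℓ w → ∃ v ∈ W, v * w = 1)
    (hW4 : ∀ σ ∈ D, ∀ w ∈ W, σ • w ∈ W)
    (hW5 : ∀ w ∈ W, (∀ σ ∈ D, DivL W ℓ (σ • w - w)) → ∃ z : ℤ, DivL W ℓ (w - (z : K)))
    (hNT : ¬ DivL W ℓ 1)
    (hH1 : ∀ w ∈ W, ∀ f ∈ HO, w • f ∈ HO)
    (hH4 : ∀ f ∈ HO, ∀ σ ∈ D, conjFun σ f ∈ HO)
    (h : ι → M → K) (hh : ∀ j, h j ∈ HO) (hhD : ∀ j, IsEquivar D (h j))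
    (hsat : ∀ z : ι → ℤ, DivLH HO ℓ (∑ j, (z j : K) • h j) → ∀ j, (ℓ : ℤ) ∣ z j) :
    ∀ w : ι → K, (∀ j, w j ∈ W) → DivLH HO ℓ (∑ j, w j • h j) → ∀ j, DivL W ℓ (w j) := by
  classical
  -- induction on a bound for the size of the support modulo `ℓ`
  suffices key : ∀ (n : ℕ) (w : ι → K), (∀ j, w j ∈ W) →
      (Finset.univ.filter fun j => ¬ DivL W ℓ (w j)).card ≤ n →
      DivLH HO ℓ (∑ j, w j • h j) → ∀ j, DivL W ℓ (w j) from
    fun w hw hsum => key _ w hw le_rfl hsum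
  intro n
  induction n with
  | zero =>
    intro w _ hcard _ j
    by_contra hj
    have : j ∈ Finset.univ.filter fun j => ¬ DivL W ℓ (w j) :=
      Finset.mem_filter.2 ⟨Finset.mem_univ j, hj⟩
    rw [Finset.card_eq_zero.1 (Nat.le_zero.1 hcard)] at this
    exact Finset.notMem_empty j this
  | succ n ih =>
    intro w hw hcard hsum
    by_contra hne
    obtain ⟨j0, hj0⟩ := not_forall.1 hne
    obtain ⟨v, hv, hv1⟩ := hW3 (w j0) (hw j0) hj0
    -- normalise `w j0 = 1`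
    set w' : ι → K := fun j => v * w j with hw'def
    have hw' : ∀ j, w' j ∈ W := fun j => W.mul_mem hv (hw j)
    have hw'j0 : w' j0 = 1 := hv1
    have hsum' : DivLH HO ℓ (∑ j, w' j • h j) := by
      have : ∑ j, w' j • h j = v • ∑ j, w j • h j := by
        rw [Finset.smul_sum]
        refine Finset.sum_congr rfl fun j _ => ?_
        simp only [hw'def, mul_smul]
      rw [this]
      exact hsum.smul_mem hH1 hv
    have hsupp : ∀ j, DivL W ℓ (w j) → DivL W ℓ (w' j) := fun j hj => hj.mul_left hv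
    -- the differences `σ • w' - w'`
    have hdiff : ∀ σ ∈ D, ∀ j, DivL W ℓ (σ • w' j - w' j) := by
      intro σ hσ
      refine ih (fun j => σ • w' j - w' j)
        (fun j => W.sub_mem (hW4 σ hσ _ (hw' j)) (hw' j)) ?_ ?_
      · -- the support shrinks
        have hsub : (Finset.univ.filter fun j => ¬ DivL W ℓ (σ • w' j - w' j)) ⊆
            (Finset.univ.filter fun j => ¬ DivL W ℓ (w j)).erase j0 := by
          intro j hj
          have hj' := (Finset.mem_filter.1 hj).2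
          refine Finset.mem_erase.2 ⟨?_, Finset.mem_filter.2 ⟨Finset.mem_univ j, ?_⟩⟩
          · rintro rfl
            apply hj'
            rw [hw'j0, smul_one, sub_self]
            exact divL_zero
          · intro hwj
            exact hj' (((hsupp j hwj).smul hW4 hσ).sub (hsupp j hwj))
        have h1 := Finset.card_le_card hsub
        have h2 : j0 ∈ Finset.univ.filter fun j => ¬ DivL W ℓ (w j) :=
          Finset.mem_filter.2 ⟨Finset.mem_univ j0, hj0⟩
        rw [Finset.card_erase_of_mem h2] at h1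
        omega
      · -- the relation
        have h1 : ∑ j, (σ • w' j - w' j) • h j =
            conjFun σ (∑ j, w' j • h j) - ∑ j, w' j • h j := by
          rw [conjFun_sum_smul, ← Finset.sum_sub_distrib]
          refine Finset.sum_congr rfl fun j _ => ?_
          rw [conjFun_of_isEquivar (hhD j) hσ, sub_smul]
        rw [h1]
        exact (hsum'.conj hH4 hσ).sub hsum'
    -- hence `w' j ∈ ℤ + ℓ W`
    have hz : ∀ j, ∃ z : ℤ, DivL W ℓ (w' j - (z : K)) := fun j =>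
      hW5 (w' j) (hw' j) fun σ hσ => hdiff σ hσ j
    choose z hz using hz
    have hzsum : DivLH HO ℓ (∑ j, (z j : K) • h j) := by
      have h1 : ∑ j, (z j : K) • h j = ∑ j, w' j • h j - ∑ j, (w' j - (z j : K)) • h j := by
        rw [← Finset.sum_sub_distrib]
        refine Finset.sum_congr rfl fun j _ => ?_
        rw [sub_smul, sub_sub_cancel]
      rw [h1]
      exact hsum'.sub (DivLH.sum _ fun j _ => (hz j).smul_mem hH1 (hh j))
    have h2 := hsat z hzsum j0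
    apply hNT
    have h3 : (1 : K) = (w' j0 - (z j0 : K)) + (z j0 : K) := by rw [hw'j0]; ring
    rw [h3]
    exact (hz j0).add (divL_intCast_of_dvd h2)

end ModL

end Fermat.Agent.GH.N1
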