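/-
GATE-H (S19) / node N1 DESCENT, part 3 (helper71): a finitely generated `ℤ_(ℓ)`-submodule of a
`ℚ`-vector space has a `ℤ_(ℓ)`-basis, and that basis is `ℚ`-linearly independent
(`ℤ_(ℓ) = GaloisRep.ratLocalizedAt ℓ` is a discrete valuation ring with fraction field `ℚ`:
`Fermat.Agent.S28.RatLocal`).
-/
import Mathlib
import Fermat.Agent.S28.RatLocal

set_option autoImplicit false
open scoped BigOperators
open GaloisRep

namespace Fermat.Agent.GH.N1

section RBasis
variable (ℓ : ℕ) [Fact ℓ.Prime] {V : Type*} [AddCommGroup V] [Module ℚ V]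

omit [Fact ℓ.Prime] in
/-- a `ℚ`-vector space is torsion-free over `ℤ_(ℓ)` -/
theorem isTorsionFree_ratLocalizedAt : Module.IsTorsionFree (ratLocalizedAt ℓ) V :=
  Module.IsTorsionFree.of_smul_eq_zero fun r m h => by
    have h1 : ((r : ℚ)) • m = 0 := h
    rcases smul_eq_zero.1 h1 with h2 | h2
    · exact Or.inl (Subtype.ext h2)
    · exact Or.inr h2

/-- A finitely generated `ℤ_(ℓ)`-submodule of a `ℚ`-vector space has a `ℤ_(ℓ)`-basis which is
`ℚ`-linearly independent. -/
theorem exists_rbasis (H : Submodule (ratLocalizedAt ℓ) V) (hfg : H.FG) :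
    ∃ (n : ℕ) (h : Fin n → V), (∀ i, h i ∈ H) ∧ LinearIndependent ℚ h ∧
      ∀ f ∈ H, ∃ c : Fin n → ℚ, (∀ i, c i ∈ ratLocalizedAt ℓ) ∧ f = ∑ i, c i • h i := by
  have : Module.Finite (ratLocalizedAt ℓ) H := Module.Finite.iff_fg.2 hfg
  have : Module.IsTorsionFree (ratLocalizedAt ℓ) V := isTorsionFree_ratLocalizedAt ℓ
  have : Module.IsTorsionFree (ratLocalizedAt ℓ) H :=
    Function.Injective.moduleIsTorsionFree (H.subtype) H.subtype_injective (fun _ _ => rfl)
  have : Module.Free (ratLocalizedAt ℓ) H := Module.free_of_finite_type_torsion_free'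
  let b := Module.finBasis (ratLocalizedAt ℓ) H
  refine ⟨_, fun i => (b i : V), fun i => (b i).2, ?_, ?_⟩
  · rw [← LinearIndependent.iff_fractionRing (ratLocalizedAt ℓ) ℚ]
    exact b.linearIndependent.map' H.subtype (Submodule.ker_subtype H)
  · intro f hf
    refine ⟨fun i => ((b.repr ⟨f, hf⟩ i : ratLocalizedAt ℓ) : ℚ), fun i => (b.repr ⟨f, hf⟩ i).2, ?_⟩
    have h1 : ((∑ i, b.repr ⟨f, hf⟩ i • b i : H) : V) = f :=
      congrArg (Subtype.val) (b.sum_repr ⟨f, hf⟩)
    rw [Submodule.coe_sum] at h1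
    exact h1.symm

end RBasis
end Fermat.Agent.GH.N1
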