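/-
GATE-H (S19) / node N1 DESCENT, part 4 (helper71): **the descent theorem** `W`-order ⟹ `ℤ_(ℓ)`-order.

Setting (pure algebra; `Mathlib` + `Fermat.Agent.S28.RatLocal`): `K` a field over `ℚ`, `G` a group
acting on `K` with `K^G = ℚ` and on a finite set `M`; `I, D ≤ G`; `W ⊆ K` a subring with
(W1) `W ∩ ℚ = ℤ_(ℓ)`, (W2) `K^I = W[1/ℓ]`, (W3) `W/ℓ` a field, (W4) `W` is `D`-stable,
(W5) `(W/ℓ)^D = 𝔽_ℓ`; `HO ⊆ Map(M, K)` a `W`-stable subring of `I`-equivariant functions which is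
`D`-stable and separates points; `G`-equivariant functions separate points (SEP).  All of this is the
structure `OrderHyp ℓ I D W HO`.  In addition `BoundHyp G ℓ HO`: the `G`-equivariant elements of `HO`
lie in a finitely generated `ℤ_(ℓ)`-module; it follows from finite generation of `HO` over `W`
(`OrderHyp.boundHyp_of_fg`) or from boundedness of the values (`OrderHyp.boundHyp_of_values`).

Results (`R = ℤ_(ℓ) = GaloisRep.ratLocalizedAt ℓ`, `A_M` = the `G`-equivariant functions):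
* `OrderHyp.exists_basis_of_order` : a family `h : Fin n → M → K` of `G`-equivariant elements of
  `HO` which is a `K`-basis of all functions, `W`-spans `HO` and `R`-spans `HO ∩ A_M`;
* `OrderHyp.exists_order` : if moreover `HO` is closed under the comultiplication
  `f ↦ ((x, y) ↦ f (x + y))` with coefficients in an overring `A' ⊇ W`, `A' ∩ ℚ ⊆ R`, then
  `H := HO ∩ A_M` is an `R`-subalgebra of `M → K`, finite over `R`, separating points and closed
  under the comultiplication: the hypotheses of N0 `hopf_of_order`.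
-/
import Mathlib
import Fermat.Agent.S28.RatLocal
import Fermat.Agent.GH.N1.Indep
import Fermat.Agent.GH.N1.ModL
import Fermat.Agent.GH.N1.RBasis

set_option autoImplicit false
set_option linter.unusedSectionVars false

open scoped BigOperators
open GaloisRep

namespace Fermat.Agent.GH.N1

section LinAlg

variable {K : Type*} [Field K] {V : Type*} [AddCommGroup V] [Module K V]

/-- A spanning set of a finite-dimensional space contains a finite basis. -/
theorem exists_fin_basis_of_span_eq_top [FiniteDimensional K V] (S : Set V)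
    (hS : Submodule.span K S = ⊤) :
    ∃ (n : ℕ) (e : Fin n → V), (∀ i, e i ∈ S) ∧ LinearIndependent K e ∧
      Submodule.span K (Set.range e) = ⊤ := by
  obtain ⟨b, hbS, hspan, hli⟩ := exists_linearIndependent K S
  have hfin : b.Finite := hli.setFinite
  have := hfin.fintype
  let eq := Fintype.equivFin b
  refine ⟨Fintype.card b, fun i => ((eq.symm i : b) : V), fun i => hbS (eq.symm i).2, ?_, ?_⟩
  · exact hli.comp _ eq.symm.injective
  · have : Set.range (fun i => ((eq.symm i : b) : V)) = b := by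
      ext v
      constructor
      · rintro ⟨i, rfl⟩
        exact (eq.symm i).2
      · intro hv
        exact ⟨eq ⟨v, hv⟩, by simp⟩
    rw [this, hspan, hS]

/-- coordinates with respect to a spanning family -/
theorem exists_coeff_of_span_eq_top {n : ℕ} (e : Fin n → V)
    (he : Submodule.span K (Set.range e) = ⊤) (f : V) : ∃ c : Fin n → K, f = ∑ i, c i • e i := by
  have hf : f ∈ Submodule.span K (Set.range e) := by rw [he]; trivial
  obtain ⟨c, hc⟩ := Submodule.mem_span_range_iff_exists_fun K |>.1 hf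
  exact ⟨c, hc.symm⟩

end LinAlg

section Basics

variable {K : Type*} [Field K] [Algebra ℚ K] {G : Type*} [Group G] [MulSemiringAction G K]

theorem smul_algebraMap_rat (σ : G) (q : ℚ) : σ • algebraMap ℚ K q = algebraMap ℚ K q := by
  rw [eq_ratCast]
  exact map_ratCast (MulSemiringAction.toRingHom G K σ) q

theorem natCast_ne_zero_of_prime (ℓ : ℕ) [hℓ : Fact ℓ.Prime] : (ℓ : K) ≠ 0 := by
  have : CharZero K := algebraRat.charZero K
  exact Nat.cast_ne_zero.2 hℓ.out.ne_zero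

theorem not_inv_mem_ratLocalizedAt (ℓ : ℕ) [hℓ : Fact ℓ.Prime] :
    ((ℓ : ℚ))⁻¹ ∉ ratLocalizedAt ℓ := by
  rw [Fermat.Agent.S28.mem_ratLocalizedAt_iff, Rat.inv_natCast_den, if_neg hℓ.out.ne_zero,
    Nat.coprime_self]
  exact hℓ.out.one_lt.ne'

end Basics


section Descent

variable {K : Type*} [Field K] [Algebra ℚ K] {G : Type*} [Group G] [MulSemiringAction G K]
variable {M : Type*} [MulAction G M]

/-- The hypotheses of the descent theorem: `W ⊆ K` plays the role of the ring of integers of the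
maximal unramified extension (`I` = inertia, `D` = decomposition group), `HO` is a `W`-order of
`I`-equivariant functions. -/
structure OrderHyp (ℓ : ℕ) (I D : Subgroup G) (W : Subring K) (HO : Subring (M → K)) : Prop where
  /-- `K^G = ℚ` -/
  hfix : ∀ a : K, (∀ σ : G, σ • a = a) → ∃ q : ℚ, algebraMap ℚ K q = a
  /-- `W ∩ ℚ = ℤ_(ℓ)` -/
  hW1 : ∀ q : ℚ, algebraMap ℚ K q ∈ W ↔ q ∈ ratLocalizedAt ℓ
  /-- `K^I = W[1/ℓ]` -/
  hW2 : ∀ a : K, (∀ σ ∈ I, σ • a = a) → ∃ c : ℕ, (ℓ : K) ^ c * a ∈ W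
  /-- `W / ℓ` is a field -/
  hW3 : ∀ w ∈ W, ¬ DivL W ℓ w → ∃ v ∈ W, v * w = 1
  /-- `W` is `D`-stable -/
  hW4 : ∀ σ ∈ D, ∀ w ∈ W, σ • w ∈ W
  /-- `(W / ℓ)^D = 𝔽_ℓ` -/
  hW5 : ∀ w ∈ W, (∀ σ ∈ D, DivL W ℓ (σ • w - w)) → ∃ z : ℤ, DivL W ℓ (w - (z : K))
  /-- `HO` is `W`-stable -/
  hH1 : ∀ w ∈ W, ∀ f ∈ HO, w • f ∈ HO
  /-- `HO` consists of `I`-equivariant functions -/
  hH3 : ∀ f ∈ HO, IsEquivar I f
  /-- `HO` is `D`-stable -/
  hH4 : ∀ f ∈ HO, ∀ σ ∈ D, conjFun σ f ∈ HO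
  /-- `HO` separates points -/
  hH5 : ∀ x y : M, x ≠ y → ∃ f ∈ HO, f x ≠ f y
  /-- `G`-equivariant functions separate points -/
  hSEP : ∀ x y : M, x ≠ y → ∃ f : M → K, IsEquivar (⊤ : Subgroup G) f ∧ f x ≠ f y

variable {ℓ : ℕ} {I D : Subgroup G} {W : Subring K} {HO : Subring (M → K)}

/-- the submonoid of equivariant functions -/
def equivarSubmonoid (Γ : Subgroup G) : Submonoid (M → K) where
  carrier := {f | IsEquivar Γ f}
  mul_mem' := fun hf hg => hf.mul hg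
  one_mem' := isEquivar_one Γ

theorem natCast_pow_mem (W : Subring K) (ℓ c : ℕ) : (ℓ : K) ^ c ∈ W :=
  W.pow_mem (natCast_mem W ℓ) c

/-- uniform pole bound for finitely many `I`-fixed elements -/
theorem OrderHyp.exists_pow_mul_mem (hyp : OrderHyp ℓ I D W HO) {ι : Type*} [Finite ι]
    (a : ι → K) (ha : ∀ i, ∀ σ ∈ I, σ • a i = a i) : ∃ c : ℕ, ∀ i, (ℓ : K) ^ c * a i ∈ W := by
  classical
  have := Fintype.ofFinite ι
  choose c hc using fun i => hyp.hW2 (a i) (ha i)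
  refine ⟨∑ i, c i, fun i => ?_⟩
  have h1 : c i ≤ ∑ j, c j := Finset.single_le_sum (fun _ _ => Nat.zero_le _) (Finset.mem_univ i)
  obtain ⟨k, hk⟩ := Nat.exists_eq_add_of_le h1
  rw [hk, add_comm, pow_add, mul_assoc]
  exact W.mul_mem (natCast_pow_mem W ℓ k) (hc i)

theorem OrderHyp.smul_rat_mem (hyp : OrderHyp ℓ I D W HO) {q : ℚ} (hq : q ∈ ratLocalizedAt ℓ)
    {f : M → K} (hf : f ∈ HO) : algebraMap ℚ K q • f ∈ HO :=
  hyp.hH1 _ ((hyp.hW1 q).2 hq) f hf

variable [Finite M]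

/-- an equivariant `K`-basis of `M → K` -/
theorem OrderHyp.exists_equivar_basis (hyp : OrderHyp ℓ I D W HO) :
    ∃ (n : ℕ) (e : Fin n → M → K), (∀ i, IsEquivar (⊤ : Subgroup G) (e i)) ∧
      LinearIndependent K e ∧ Submodule.span K (Set.range e) = ⊤ := by
  have h1 := span_eq_top_of_separates (equivarSubmonoid (K := K) (M := M) (⊤ : Subgroup G))
    (fun x y hxy => hyp.hSEP x y hxy)
  exact exists_fin_basis_of_span_eq_top _ h1

/-- a `K`-basis of `M → K` inside `HO` -/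
theorem OrderHyp.exists_order_basis (hyp : OrderHyp ℓ I D W HO) :
    ∃ (n : ℕ) (b : Fin n → M → K), (∀ i, b i ∈ HO) ∧
      LinearIndependent K b ∧ Submodule.span K (Set.range b) = ⊤ := by
  have h1 := span_eq_top_of_separates HO.toSubmonoid (fun x y hxy => hyp.hH5 x y hxy)
  exact exists_fin_basis_of_span_eq_top _ h1

/-- every equivariant function has a multiple `ℓ ^ c • e` in `HO` -/
theorem OrderHyp.exists_pow_smul_mem (hyp : OrderHyp ℓ I D W HO) {e : M → K}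
    (he : IsEquivar (⊤ : Subgroup G) e) : ∃ c : ℕ, (ℓ : K) ^ c • e ∈ HO := by
  obtain ⟨n, b, hbHO, hbli, hbspan⟩ := hyp.exists_order_basis
  obtain ⟨a, ha⟩ := exists_coeff_of_span_eq_top b hbspan e
  have hafix : ∀ i, ∀ σ ∈ I, σ • a i = a i := by
    intro i σ hσ
    refine smul_coeff_eq_of_equivariant Finset.univ b (fun j => hyp.hH3 _ (hbHO j)) hbli a ?_ hσ
      (Finset.mem_univ i)
    rw [← ha]
    exact he.mono le_top
  obtain ⟨c, hc⟩ := hyp.exists_pow_mul_mem a hafix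
  refine ⟨c, ?_⟩
  rw [ha, Finset.smul_sum]
  refine HO.sum_mem fun i _ => ?_
  rw [smul_smul]
  exact hyp.hH1 _ (hc i) _ (hbHO i)


/-! ### Finite generation of `HO ∩ A_M` over `ℤ_(ℓ)` -/

theorem ratLoc_smul_eq (r : ratLocalizedAt ℓ) (f : M → K) :
    r • f = algebraMap ℚ K (r : ℚ) • f := by
  funext x
  exact Algebra.smul_def (r : ℚ) (f x)

variable (G) in
/-- `HO ∩ A_M` is contained in a finitely generated `ℤ_(ℓ)`-module. -/
def BoundHyp (ℓ : ℕ) (HO : Subring (M → K)) : Prop :=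
  ∃ T : Submodule (ratLocalizedAt ℓ) (M → K), T.FG ∧
    ∀ f ∈ HO, IsEquivar (⊤ : Subgroup G) f → f ∈ T

variable [hℓ : Fact ℓ.Prime]

/-- The core of the finiteness statements: finitely many generators with bounded poles. -/
theorem boundHyp_of_generators
    (hfix : ∀ a : K, (∀ σ : G, σ • a = a) → ∃ q : ℚ, algebraMap ℚ K q = a)
    (A' : Subring K) (hA'ℚ : ∀ q : ℚ, algebraMap ℚ K q ∈ A' → q ∈ ratLocalizedAt ℓ)
    {n : ℕ} (e : Fin n → M → K) (he : ∀ i, IsEquivar (⊤ : Subgroup G) (e i))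
    (heli : LinearIndependent K e) {κ : Type*} [Fintype κ] (gen : κ → M → K)
    (γ : κ → Fin n → K) (hγ : ∀ k, gen k = ∑ i, γ k i • e i) (c : ℕ)
    (hc : ∀ k i, (ℓ : K) ^ c * γ k i ∈ A')
    (hgen : ∀ f ∈ HO, IsEquivar (⊤ : Subgroup G) f →
      ∃ w : κ → K, (∀ k, w k ∈ A') ∧ f = ∑ k, w k • gen k) :
    BoundHyp G ℓ HO := by
  have hℓ0 : ((ℓ : K)) ^ c ≠ 0 := pow_ne_zero _ (natCast_ne_zero_of_prime ℓ)
  refine ⟨Submodule.span _ (Set.range fun i => ((ℓ : K) ^ c)⁻¹ • e i),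
    Submodule.fg_span (Set.finite_range _), fun f hf hfe => ?_⟩
  obtain ⟨w, hw, hfw⟩ := hgen f hf hfe
  -- coordinates of `f`
  set d : Fin n → K := fun i => ∑ k, w k * γ k i with hd
  have hfd : f = ∑ i, d i • e i := by
    rw [hfw]
    simp only [hd, Finset.sum_smul]
    rw [Finset.sum_comm]
    refine Finset.sum_congr rfl fun k _ => ?_
    rw [hγ k, Finset.smul_sum]
    refine Finset.sum_congr rfl fun i _ => ?_
    rw [smul_smul]
  have hdfix : ∀ i, ∀ σ : G, σ • d i = d i := by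
    intro i σ
    refine smul_coeff_eq_of_equivariant Finset.univ e he heli d ?_ (Subgroup.mem_top σ)
      (Finset.mem_univ i)
    rw [← hfd]
    exact hfe
  choose q hq using fun i => hfix (d i) (hdfix i)
  have hdA : ∀ i, (ℓ : K) ^ c * d i ∈ A' := by
    intro i
    simp only [hd, Finset.mul_sum]
    refine A'.sum_mem fun k _ => ?_
    rw [mul_left_comm]
    exact A'.mul_mem (hw k) (hc k i)
  have hr : ∀ i, (ℓ : ℚ) ^ c * q i ∈ ratLocalizedAt ℓ := by
    intro i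
    apply hA'ℚ
    rw [map_mul, map_pow, map_natCast, hq i]
    exact hdA i
  rw [hfd]
  refine Submodule.sum_mem _ fun i _ => ?_
  have h1 : d i • e i =
      (⟨(ℓ : ℚ) ^ c * q i, hr i⟩ : ratLocalizedAt ℓ) • (((ℓ : K) ^ c)⁻¹ • e i) := by
    rw [ratLoc_smul_eq, smul_smul]
    congr 1
    show d i = algebraMap ℚ K ((ℓ : ℚ) ^ c * q i) * ((ℓ : K) ^ c)⁻¹
    rw [map_mul, map_pow, map_natCast, hq i]
    field_simp
  rw [h1]
  exact Submodule.smul_mem _ _ (Submodule.subset_span (Set.mem_range_self i))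

/-- **finite generation over `W`** gives the bound -/
theorem OrderHyp.boundHyp_of_fg (hyp : OrderHyp ℓ I D W HO)
    (hH2 : ∃ s : Finset (M → K), (∀ g ∈ s, g ∈ HO) ∧ ∀ f ∈ HO,
      ∃ c : (M → K) → K, (∀ g ∈ s, c g ∈ W) ∧ f = ∑ g ∈ s, c g • g) :
    BoundHyp G ℓ HO := by
  obtain ⟨n, e, he, heli, hespan⟩ := hyp.exists_equivar_basis
  obtain ⟨s, hsHO, hs⟩ := hH2
  choose γ hγ using fun g : M → K => exists_coeff_of_span_eq_top e hespan g
  have hfixI : ∀ p : {g // g ∈ s} × Fin n, ∀ σ ∈ I, σ • γ p.1.1 p.2 = γ p.1.1 p.2 := by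
    rintro ⟨⟨g, hg⟩, i⟩ σ hσ
    refine smul_coeff_eq_of_equivariant Finset.univ e (fun j => (he j).mono le_top) heli (γ g) ?_
      hσ (Finset.mem_univ i)
    rw [← hγ g]
    exact hyp.hH3 g (hsHO g hg)
  obtain ⟨c, hc⟩ := hyp.exists_pow_mul_mem (fun p : {g // g ∈ s} × Fin n => γ p.1.1 p.2) hfixI
  refine boundHyp_of_generators hyp.hfix W (fun q hq => (hyp.hW1 q).1 hq) e he heli
    (fun g : {g // g ∈ s} => (g : M → K)) (fun g => γ g.1) (fun g => hγ g.1) c
    (fun g i => hc (g, i)) fun f hf _ => ?_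
  obtain ⟨w, hw, hfw⟩ := hs f hf
  refine ⟨fun g => w g.1, fun g => hw g.1 g.2, ?_⟩
  rw [hfw]
  exact (Finset.sum_coe_sort s fun g => w g • g).symm

/-- **bounded values** give the bound: `A'` a subring with `A' ∩ ℚ ⊆ ℤ_(ℓ)` and `K = A'[1/ℓ]`
containing all values of `HO ∩ A_M`. -/
theorem OrderHyp.boundHyp_of_values (hyp : OrderHyp ℓ I D W HO) (A' : Subring K)
    (hA'ℚ : ∀ q : ℚ, algebraMap ℚ K q ∈ A' → q ∈ ratLocalizedAt ℓ)
    (hA'pole : ∀ a : K, ∃ c : ℕ, (ℓ : K) ^ c * a ∈ A')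
    (hval : ∀ f ∈ HO, IsEquivar (⊤ : Subgroup G) f → ∀ x, f x ∈ A') :
    BoundHyp G ℓ HO := by
  classical
  have := Fintype.ofFinite M
  obtain ⟨n, e, he, heli, hespan⟩ := hyp.exists_equivar_basis
  choose γ hγ using fun g : M → K => exists_coeff_of_span_eq_top e hespan g
  choose c hc using fun p : M × Fin n => hA'pole (γ (Pi.single p.1 (1 : K)) p.2)
  have hc' : ∀ x i, (ℓ : K) ^ (∑ p, c p) * γ (Pi.single x (1 : K)) i ∈ A' := by
    intro x i
    have h1 : c (x, i) ≤ ∑ p, c p :=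
      Finset.single_le_sum (fun _ _ => Nat.zero_le _) (Finset.mem_univ (x, i))
    obtain ⟨k, hk⟩ := Nat.exists_eq_add_of_le h1
    rw [hk, add_comm, pow_add, mul_assoc]
    exact A'.mul_mem (natCast_pow_mem A' ℓ k) (hc (x, i))
  refine boundHyp_of_generators hyp.hfix A' hA'ℚ e he heli
    (fun x : M => Pi.single x (1 : K)) (fun x => γ (Pi.single x (1 : K)))
    (fun x => hγ _) _ hc' fun f hf hfe => ⟨f, hval f hf hfe, ?_⟩
  funext z
  simp [Finset.sum_apply, Pi.single_apply]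


/-! ### The `ℤ_(ℓ)`-basis of `HO ∩ A_M` -/

theorem rat_smul_eq (q : ℚ) (f : M → K) : q • f = algebraMap ℚ K q • f := by
  funext x
  exact Algebra.smul_def q (f x)

/-- the `ℤ_(ℓ)`-submodule `HO ∩ A_M` -/
def OrderHyp.descentSubmodule (hyp : OrderHyp ℓ I D W HO) :
    Submodule (ratLocalizedAt ℓ) (M → K) where
  carrier := {f | f ∈ HO ∧ IsEquivar (⊤ : Subgroup G) f}
  add_mem' := fun hf hg => ⟨HO.add_mem hf.1 hg.1, hf.2.add hg.2⟩
  zero_mem' := ⟨HO.zero_mem, isEquivar_zero _⟩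
  smul_mem' := fun r f hf => by
    rw [ratLoc_smul_eq]
    exact ⟨hyp.smul_rat_mem r.2 hf.1, hf.2.smul_fixed fun σ _ => smul_algebraMap_rat σ _⟩

theorem OrderHyp.mem_descentSubmodule (hyp : OrderHyp ℓ I D W HO) (f : M → K) :
    f ∈ hyp.descentSubmodule ↔ f ∈ HO ∧ IsEquivar (⊤ : Subgroup G) f := Iff.rfl

/-- **R1**: a `ℤ_(ℓ)`-basis `h` of `HO ∩ A_M`; it is a `K`-basis of all functions. -/
theorem OrderHyp.exists_rat_basis (hyp : OrderHyp ℓ I D W HO) (hb : BoundHyp G ℓ HO) :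
    ∃ (n : ℕ) (h : Fin n → M → K), (∀ i, h i ∈ HO) ∧ (∀ i, IsEquivar (⊤ : Subgroup G) (h i)) ∧
      LinearIndependent K h ∧ Submodule.span K (Set.range h) = ⊤ ∧
      ∀ f ∈ HO, IsEquivar (⊤ : Subgroup G) f →
        ∃ c : Fin n → ℚ, (∀ i, c i ∈ ratLocalizedAt ℓ) ∧ f = ∑ i, algebraMap ℚ K (c i) • h i := by
  obtain ⟨T, hTfg, hT⟩ := hb
  have hle : hyp.descentSubmodule ≤ T := fun f hf => hT f hf.1 hf.2
  have hfg : hyp.descentSubmodule.FG := hTfg.of_le hle
  obtain ⟨n, h, hhH, hhℚ, hhgen⟩ := exists_rbasis ℓ hyp.descentSubmodule hfg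
  have hhe : ∀ i, IsEquivar (⊤ : Subgroup G) (h i) := fun i => (hhH i).2
  -- `K`-independence
  have hli : LinearIndependent K h := by
    refine linearIndependent_of_fixed (⊤ : Subgroup G) h hhe fun s d hd hsum => ?_
    choose q hq using fun i => hyp.hfix (d i) fun σ => hd i σ (Subgroup.mem_top σ)
    have h1 : ∑ i ∈ s, q i • h i = 0 := by
      rw [← hsum]
      refine Finset.sum_congr rfl fun i _ => ?_
      rw [rat_smul_eq, hq i]
    intro i hi
    have h2 := linearIndependent_iff'.1 hhℚ s q h1 i hi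
    rw [← hq i, h2, map_zero]
  -- spanning
  have hgen' : ∀ f ∈ HO, IsEquivar (⊤ : Subgroup G) f →
      ∃ c : Fin n → ℚ, (∀ i, c i ∈ ratLocalizedAt ℓ) ∧ f = ∑ i, algebraMap ℚ K (c i) • h i := by
    intro f hf hfe
    obtain ⟨c, hc, hfc⟩ := hhgen f ⟨hf, hfe⟩
    refine ⟨c, hc, ?_⟩
    rw [hfc]
    refine Finset.sum_congr rfl fun i _ => ?_
    rw [rat_smul_eq]
  have hspan : Submodule.span K (Set.range h) = ⊤ := by
    obtain ⟨m, e, he, -, hespan⟩ := hyp.exists_equivar_basis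
    rw [eq_top_iff, ← hespan, Submodule.span_le]
    rintro _ ⟨i, rfl⟩
    obtain ⟨c, hc⟩ := hyp.exists_pow_smul_mem (he i)
    have hfix : ∀ σ ∈ (⊤ : Subgroup G), σ • ((ℓ : K) ^ c) = (ℓ : K) ^ c := fun σ _ => by
      rw [smul_pow', smul_natCast_eq]
    obtain ⟨r, -, hr⟩ := hgen' _ hc ((he i).smul_fixed hfix)
    have hℓ0 : ((ℓ : K)) ^ c ≠ 0 := pow_ne_zero _ (natCast_ne_zero_of_prime ℓ)
    have h1 : e i = ((ℓ : K) ^ c)⁻¹ • ((ℓ : K) ^ c • e i) := by
      rw [smul_smul, inv_mul_cancel₀ hℓ0, one_smul]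
    rw [h1, hr]
    refine Submodule.smul_mem _ _ (Submodule.sum_mem _ fun j _ => ?_)
    exact Submodule.smul_mem _ _ (Submodule.subset_span (Set.mem_range_self j))
  exact ⟨n, h, fun i => (hhH i).1, hhe, hli, hspan, hgen'⟩


/-- `ℓ` is not a unit of `W` -/
theorem OrderHyp.not_divL_one (hyp : OrderHyp ℓ I D W HO) : ¬ DivL W ℓ (1 : K) := by
  rintro ⟨u, hu, h1⟩
  have hℓ0 : (ℓ : K) ≠ 0 := natCast_ne_zero_of_prime ℓ
  have h2 : algebraMap ℚ K ((ℓ : ℚ))⁻¹ = u := by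
    rw [map_inv₀, map_natCast]
    exact (eq_inv_of_mul_eq_one_right h1.symm).symm
  have h3 : algebraMap ℚ K ((ℓ : ℚ))⁻¹ ∈ W := by rw [h2]; exact hu
  exact not_inv_mem_ratLocalizedAt ℓ ((hyp.hW1 _).1 h3)

/-- **saturation**: an integral combination of the basis lying in `ℓ HO` has coefficients
divisible by `ℓ`. -/
theorem dvd_of_divLH {n : ℕ} (h : Fin n → M → K)
    (hhe : ∀ i, IsEquivar (⊤ : Subgroup G) (h i)) (hli : LinearIndependent K h)
    (hgen : ∀ f ∈ HO, IsEquivar (⊤ : Subgroup G) f →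
      ∃ c : Fin n → ℚ, (∀ i, c i ∈ ratLocalizedAt ℓ) ∧ f = ∑ i, algebraMap ℚ K (c i) • h i)
    (z : Fin n → ℤ) (hz : DivLH HO ℓ (∑ j, (z j : K) • h j)) (j : Fin n) : (ℓ : ℤ) ∣ z j := by
  obtain ⟨g, hg, hsum⟩ := hz
  have hℓ0 : (ℓ : K) ≠ 0 := natCast_ne_zero_of_prime ℓ
  have hge : IsEquivar (⊤ : Subgroup G) g := by
    have h1 : g = ((ℓ : K))⁻¹ • ∑ j, (z j : K) • h j := by
      rw [hsum, smul_smul, inv_mul_cancel₀ hℓ0, one_smul]
    rw [h1]
    refine (IsEquivar.sum _ fun j _ => (hhe j).smul_fixed fun σ _ => smul_intCast_eq σ _).smul_fixed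
      fun σ _ => ?_
    rw [smul_inv'', smul_natCast_eq]
  obtain ⟨r, hr, hgr⟩ := hgen g hg hge
  have h0 : ∑ j, ((z j : K) - (ℓ : K) * algebraMap ℚ K (r j)) • h j = 0 := by
    simp only [sub_smul, Finset.sum_sub_distrib, mul_smul]
    rw [hsum, ← Finset.smul_sum, ← hgr, sub_self]
  have h1 := linearIndependent_iff'.1 hli Finset.univ _ h0 j (Finset.mem_univ j)
  have h2 : (z j : ℚ) = (ℓ : ℚ) * r j := by
    apply (algebraMap ℚ K).injective
    rw [map_mul, map_natCast, map_intCast]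
    exact sub_eq_zero.1 h1
  by_contra hndvd
  have h3 := Fermat.Agent.S28.inv_intCast_mem ℓ hndvd
  have hz0 : (z j : ℚ) ≠ 0 := by
    intro h
    apply hndvd
    have : z j = 0 := by exact_mod_cast h
    rw [this]
    exact dvd_zero _
  have hℓq : (ℓ : ℚ) ≠ 0 := Nat.cast_ne_zero.2 hℓ.out.ne_zero
  have h4 : ((ℓ : ℚ))⁻¹ = r j * ((z j : ℚ))⁻¹ := by
    rw [h2] at hz0 ⊢
    have hr0 : r j ≠ 0 := right_ne_zero_of_mul hz0
    field_simp
  apply not_inv_mem_ratLocalizedAt ℓ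
  rw [h4]
  exact (ratLocalizedAt ℓ).mul_mem (hr j) h3

/-- every element of `HO` is a `W`-combination of the `ℤ_(ℓ)`-basis of `HO ∩ A_M` -/
theorem OrderHyp.exists_W_coeff (hyp : OrderHyp ℓ I D W HO) {n : ℕ} (h : Fin n → M → K)
    (hh : ∀ i, h i ∈ HO) (hhe : ∀ i, IsEquivar (⊤ : Subgroup G) (h i))
    (hli : LinearIndependent K h) (hspan : Submodule.span K (Set.range h) = ⊤)
    (hgen : ∀ f ∈ HO, IsEquivar (⊤ : Subgroup G) f →
      ∃ c : Fin n → ℚ, (∀ i, c i ∈ ratLocalizedAt ℓ) ∧ f = ∑ i, algebraMap ℚ K (c i) • h i)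
    {f : M → K} (hf : f ∈ HO) : ∃ c : Fin n → K, (∀ i, c i ∈ W) ∧ f = ∑ i, c i • h i := by
  have hℓ0 : (ℓ : K) ≠ 0 := natCast_ne_zero_of_prime ℓ
  -- removing one power of `ℓ`
  have key : ∀ (m : ℕ) (c : Fin n → K), (∀ j, (ℓ : K) ^ m * c j ∈ W) →
      ∑ j, c j • h j ∈ HO → ∀ j, c j ∈ W := by
    intro m
    induction m with
    | zero =>
      intro c hc _ j
      simpa using hc j
    | succ m ih =>
      intro c hc hsum
      refine ih c (fun j => ?_) hsum
      have hdiv : DivLH HO ℓ (∑ j, ((ℓ : K) ^ (m + 1) * c j) • h j) := by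
        refine ⟨(ℓ : K) ^ m • ∑ j, c j • h j, hyp.hH1 _ (natCast_pow_mem W ℓ m) _ hsum, ?_⟩
        rw [smul_smul, Finset.smul_sum]
        refine Finset.sum_congr rfl fun j _ => ?_
        rw [smul_smul, pow_succ']
      obtain ⟨u, hu, hwu⟩ := divL_of_sum_mem D hyp.hW3 hyp.hW4 hyp.hW5 hyp.not_divL_one hyp.hH1
        hyp.hH4 h hh (fun j => (hhe j).mono le_top) (dvd_of_divLH h hhe hli hgen)
        (fun j => (ℓ : K) ^ (m + 1) * c j) hc hdiv j
      have h1 : (ℓ : K) ^ m * c j = u := by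
        apply mul_left_cancel₀ hℓ0
        rw [← hwu, pow_succ']
        ring
      rw [h1]
      exact hu
  obtain ⟨c, hc⟩ := exists_coeff_of_span_eq_top h hspan f
  have hcfix : ∀ i, ∀ σ ∈ I, σ • c i = c i := by
    intro i σ hσ
    refine smul_coeff_eq_of_equivariant Finset.univ h (fun j => (hhe j).mono le_top) hli c ?_ hσ
      (Finset.mem_univ i)
    rw [← hc]
    exact hyp.hH3 f hf
  obtain ⟨m, hm⟩ := hyp.exists_pow_mul_mem c hcfix
  exact ⟨c, key m c hm (hc ▸ hf), hc⟩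

/-- **R1 (basis theorem, no comultiplication needed)**: a family `h` of `G`-equivariant elements
of `HO` which is a `K`-basis of all functions, a `W`-basis of `HO` and a `ℤ_(ℓ)`-basis of
`HO ∩ A_M`. -/
theorem OrderHyp.exists_basis_of_order (hyp : OrderHyp ℓ I D W HO) (hb : BoundHyp G ℓ HO) :
    ∃ (n : ℕ) (h : Fin n → M → K), (∀ i, h i ∈ HO) ∧ (∀ i, IsEquivar (⊤ : Subgroup G) (h i)) ∧
      LinearIndependent K h ∧ Submodule.span K (Set.range h) = ⊤ ∧
      (∀ f ∈ HO, ∃ c : Fin n → K, (∀ i, c i ∈ W) ∧ f = ∑ i, c i • h i) ∧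
      ∀ f ∈ HO, IsEquivar (⊤ : Subgroup G) f →
        ∃ c : Fin n → ℚ, (∀ i, c i ∈ ratLocalizedAt ℓ) ∧ f = ∑ i, algebraMap ℚ K (c i) • h i := by
  obtain ⟨n, h, hh, hhe, hli, hspan, hgen⟩ := hyp.exists_rat_basis hb
  exact ⟨n, h, hh, hhe, hli, hspan, fun f hf => hyp.exists_W_coeff h hh hhe hli hspan hgen hf, hgen⟩

end Descent

section Comul

variable {K : Type*} [Field K] [Algebra ℚ K] {G : Type*} [Group G] [MulSemiringAction G K]
variable {M : Type*} [AddCommGroup M] [Finite M] [DistribMulAction G M]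
variable {ℓ : ℕ} [hℓ : Fact ℓ.Prime] {I D : Subgroup G} {W : Subring K} {HO : Subring (M → K)}

/-- the structure constants of the comultiplication are in `ℤ_(ℓ)` -/
theorem OrderHyp.exists_comul_coeff (hyp : OrderHyp ℓ I D W HO) {n : ℕ} (h : Fin n → M → K)
    (hhe : ∀ i, IsEquivar (⊤ : Subgroup G) (h i)) (hli : LinearIndependent K h)
    (hWgen : ∀ f ∈ HO, ∃ c : Fin n → K, (∀ i, c i ∈ W) ∧ f = ∑ i, c i • h i)
    (A' : Subring K) (hWA : W ≤ A')
    (hA'ℚ : ∀ q : ℚ, algebraMap ℚ K q ∈ A' → q ∈ ratLocalizedAt ℓ)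
    {f : M → K} (hfe : IsEquivar (⊤ : Subgroup G) f) {m : ℕ} (a b : Fin m → M → K)
    (ha : ∀ i, a i ∈ Submodule.span A' (HO : Set (M → K)))
    (hb : ∀ i, b i ∈ Submodule.span A' (HO : Set (M → K)))
    (hab : ∀ x y, f (x + y) = ∑ i, a i x * b i y) :
    ∃ C : Fin n → Fin n → ℚ, (∀ j k, C j k ∈ ratLocalizedAt ℓ) ∧
      ∀ x y, f (x + y) = ∑ j, ∑ k, algebraMap ℚ K (C j k) * h j x * h k y := by
  classical
  -- `A'`-coefficients of the span of `HO`
  have hA'gen : ∀ v ∈ Submodule.span A' (HO : Set (M → K)),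
      ∃ c : Fin n → K, (∀ i, c i ∈ A') ∧ v = ∑ i, c i • h i := by
    intro v hv
    induction hv using Submodule.span_induction with
    | mem v hv =>
      obtain ⟨c, hc, hvc⟩ := hWgen v hv
      exact ⟨c, fun i => hWA (hc i), hvc⟩
    | zero => exact ⟨fun _ => 0, fun _ => A'.zero_mem, by simp⟩
    | add u v _ _ hu hv =>
      obtain ⟨c, hc, rfl⟩ := hu
      obtain ⟨d, hd, rfl⟩ := hv
      exact ⟨fun i => c i + d i, fun i => A'.add_mem (hc i) (hd i), by
        simp only [add_smul, Finset.sum_add_distrib]⟩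
    | smul r v _ hv =>
      obtain ⟨c, hc, rfl⟩ := hv
      refine ⟨fun i => (r : K) * c i, fun i => A'.mul_mem r.2 (hc i), ?_⟩
      rw [Finset.smul_sum]
      refine Finset.sum_congr rfl fun i _ => ?_
      rw [mul_smul]
      rfl
  choose α hα hαa using fun i => hA'gen (a i) (ha i)
  choose β hβ hβb using fun i => hA'gen (b i) (hb i)
  set C : Fin n × Fin n → K := fun q => ∑ i, α i q.1 * β i q.2 with hC
  have hCA : ∀ q, C q ∈ A' := fun q =>
    A'.sum_mem fun i _ => A'.mul_mem (hα i q.1) (hβ i q.2)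
  set T : Fin n × Fin n → M × M → K := fun q z => h q.1 z.1 * h q.2 z.2 with hT
  have hfC : ∀ x y, f (x + y) = ∑ q, C q * T q (x, y) := by
    intro x y
    rw [hab x y]
    simp only [hC, hT, hαa, hβb, Finset.sum_apply, Pi.smul_apply, smul_eq_mul]
    have hR : ∀ q : Fin n × Fin n, (∑ i, α i q.1 * β i q.2) * (h q.1 x * h q.2 y) =
        ∑ i, α i q.1 * β i q.2 * (h q.1 x * h q.2 y) := fun q => Finset.sum_mul _ _ _
    rw [Finset.sum_congr rfl fun q _ => hR q, Finset.sum_comm]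
    refine Finset.sum_congr rfl fun i _ => ?_
    rw [Finset.sum_mul_sum, Fintype.sum_prod_type]
    refine Finset.sum_congr rfl fun j _ => Finset.sum_congr rfl fun k _ => ?_
    ring
  -- the coefficients are fixed by `G`
  have hTe : ∀ q, IsEquivar (⊤ : Subgroup G) (T q) := by
    intro q σ hσ z
    simp only [hT, Prod.smul_fst, Prod.smul_snd, smul_mul', hhe q.1 σ hσ, hhe q.2 σ hσ]
  have hTli : LinearIndependent K T := linearIndependent_tensor h h hli hli
  have hFe : IsEquivar (⊤ : Subgroup G) (∑ q ∈ Finset.univ, C q • T q) := by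
    have h1 : (∑ q ∈ Finset.univ, C q • T q) = fun z : M × M => f (z.1 + z.2) := by
      funext z
      rw [hfC z.1 z.2]
      simp only [Finset.sum_apply, Pi.smul_apply, smul_eq_mul]
    rw [h1]
    intro σ hσ z
    simp only [Prod.smul_fst, Prod.smul_snd, ← smul_add]
    exact hfe σ hσ _
  have hCfix : ∀ q, ∀ σ : G, σ • C q = C q := fun q σ =>
    smul_coeff_eq_of_equivariant Finset.univ T hTe hTli C hFe (Subgroup.mem_top σ)
      (Finset.mem_univ q)
  choose c hc using fun q => hyp.hfix (C q) (hCfix q)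
  refine ⟨fun j k => c (j, k), fun j k => hA'ℚ _ (by rw [hc]; exact hCA _), fun x y => ?_⟩
  rw [hfC x y, Fintype.sum_prod_type]
  refine Finset.sum_congr rfl fun j _ => Finset.sum_congr rfl fun k _ => ?_
  rw [hc, mul_assoc]

/-- the `ℤ_(ℓ)`-subalgebra `HO ∩ A_M` -/
def OrderHyp.descentAlgebra (hyp : OrderHyp ℓ I D W HO) :
    Subalgebra (ratLocalizedAt ℓ) (M → K) where
  carrier := {f | f ∈ HO ∧ IsEquivar (⊤ : Subgroup G) f}
  mul_mem' := fun hf hg => ⟨HO.mul_mem hf.1 hg.1, hf.2.mul hg.2⟩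
  one_mem' := ⟨HO.one_mem, isEquivar_one _⟩
  add_mem' := fun hf hg => ⟨HO.add_mem hf.1 hg.1, hf.2.add hg.2⟩
  zero_mem' := ⟨HO.zero_mem, isEquivar_zero _⟩
  algebraMap_mem' := fun r => by
    rw [Algebra.algebraMap_eq_smul_one]
    exact hyp.descentSubmodule.smul_mem r ⟨HO.one_mem, isEquivar_one _⟩

theorem OrderHyp.mem_descentAlgebra (hyp : OrderHyp ℓ I D W HO) (f : M → K) :
    f ∈ hyp.descentAlgebra ↔ f ∈ HO ∧ IsEquivar (⊤ : Subgroup G) f := Iff.rfl

/-- **N1 DESCENT (main theorem).**  From a `W`-order `HO` of `I`-equivariant functions which is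
`D`-stable, separating and closed under the comultiplication (over an overring `A' ⊇ W` with
`A' ∩ ℚ ⊆ ℤ_(ℓ)`), the `ℤ_(ℓ)`-algebra `H = HO ∩ A_M` of `G`-equivariant elements is finite over
`ℤ_(ℓ)`, separates points and is closed under the comultiplication with `ℤ_(ℓ)`-coefficients —
the hypotheses `heq`, `hfg`, `hsep`, `hΔ` of N0 `hopf_of_order`. -/
theorem OrderHyp.exists_order (hyp : OrderHyp ℓ I D W HO) (hb : BoundHyp G ℓ HO)
    (A' : Subring K) (hWA : W ≤ A')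
    (hA'ℚ : ∀ q : ℚ, algebraMap ℚ K q ∈ A' → q ∈ ratLocalizedAt ℓ)
    (hΔ : ∀ f ∈ HO, IsEquivar (⊤ : Subgroup G) f → ∃ (m : ℕ) (a b : Fin m → M → K),
      (∀ i, a i ∈ Submodule.span A' (HO : Set (M → K))) ∧
      (∀ i, b i ∈ Submodule.span A' (HO : Set (M → K))) ∧
      ∀ x y, f (x + y) = ∑ i, a i x * b i y) :
    ∃ H : Subalgebra (ratLocalizedAt ℓ) (M → K),
      (∀ f, f ∈ H ↔ f ∈ HO ∧ IsEquivar (⊤ : Subgroup G) f) ∧
      Module.Finite (ratLocalizedAt ℓ) H ∧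
      (∀ x y : M, x ≠ y → ∃ f ∈ H, f x ≠ f y) ∧
      ∀ f ∈ H, ∃ (n : ℕ) (a b : Fin n → H),
        ∀ x y, f (x + y) = ∑ i, (a i : M → K) x * (b i : M → K) y := by
  classical
  obtain ⟨n, h, hh, hhe, hli, hspan, hWgen, hgen⟩ := hyp.exists_basis_of_order hb
  refine ⟨hyp.descentAlgebra, fun f => Iff.rfl, ?_, ?_, ?_⟩
  · -- finiteness
    obtain ⟨T, hTfg, hT⟩ := hb
    have hle : hyp.descentSubmodule ≤ T := fun f hf => hT f hf.1 hf.2
    have hfg : hyp.descentSubmodule.FG := hTfg.of_le hle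
    exact Module.Finite.iff_fg.2 hfg
  · -- separation
    intro x y hxy
    by_contra hcon
    have hall : ∀ j, h j x = h j y := by
      intro j
      by_contra hj
      exact hcon ⟨h j, ⟨hh j, hhe j⟩, hj⟩
    obtain ⟨c, hc⟩ := exists_coeff_of_span_eq_top h hspan (Pi.single x (1 : K))
    have h1 := congrFun hc x
    have h2 := congrFun hc y
    simp only [Finset.sum_apply, Pi.smul_apply, smul_eq_mul, Pi.single_eq_same] at h1 h2
    rw [Pi.single_eq_of_ne (Ne.symm hxy)] at h2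
    rw [Finset.sum_congr rfl fun j _ => by rw [hall j]] at h1
    rw [← h2] at h1
    exact one_ne_zero h1
  · -- comultiplication
    rintro f ⟨hf, hfe⟩
    obtain ⟨m, a, b, ha, hb', hab⟩ := hΔ f hf hfe
    obtain ⟨C, hC, hfC⟩ := hyp.exists_comul_coeff h hhe hli hWgen A' hWA hA'ℚ hfe a b ha hb' hab
    have hmem : ∀ j k, algebraMap ℚ K (C j k) • h j ∈ hyp.descentAlgebra := fun j k =>
      ⟨hyp.smul_rat_mem (hC j k) (hh j),
        (hhe j).smul_fixed fun σ _ => smul_algebraMap_rat σ _⟩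
    refine ⟨n * n, fun i => ⟨_, hmem (finProdFinEquiv.symm i).1 (finProdFinEquiv.symm i).2⟩,
      fun i => ⟨h (finProdFinEquiv.symm i).2, hh _, hhe _⟩, fun x y => ?_⟩
    rw [hfC x y, ← Fintype.sum_prod_type
      (f := fun q : Fin n × Fin n => algebraMap ℚ K (C q.1 q.2) * h q.1 x * h q.2 y),
      ← finProdFinEquiv.symm.sum_comp]
    rfl

/-- `OrderHyp.exists_order` with the equivariance clause spelled out (`heq` of N0). -/
theorem OrderHyp.exists_order_heq (hyp : OrderHyp ℓ I D W HO) (hb : BoundHyp G ℓ HO)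
    (A' : Subring K) (hWA : W ≤ A')
    (hA'ℚ : ∀ q : ℚ, algebraMap ℚ K q ∈ A' → q ∈ ratLocalizedAt ℓ)
    (hΔ : ∀ f ∈ HO, IsEquivar (⊤ : Subgroup G) f → ∃ (m : ℕ) (a b : Fin m → M → K),
      (∀ i, a i ∈ Submodule.span A' (HO : Set (M → K))) ∧
      (∀ i, b i ∈ Submodule.span A' (HO : Set (M → K))) ∧
      ∀ x y, f (x + y) = ∑ i, a i x * b i y) :
    ∃ H : Subalgebra (ratLocalizedAt ℓ) (M → K),
      (∀ f ∈ H, f ∈ HO) ∧
      (∀ f ∈ H, ∀ (σ : G) (x : M), f (σ • x) = σ • f x) ∧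
      Module.Finite (ratLocalizedAt ℓ) H ∧
      (∀ x y : M, x ≠ y → ∃ f ∈ H, f x ≠ f y) ∧
      ∀ f ∈ H, ∃ (n : ℕ) (a b : Fin n → H),
        ∀ x y, f (x + y) = ∑ i, (a i : M → K) x * (b i : M → K) y := by
  obtain ⟨H, hmem, hfin, hsep, hcomul⟩ := hyp.exists_order hb A' hWA hA'ℚ hΔ
  exact ⟨H, fun f hf => ((hmem f).1 hf).1,
    fun f hf σ x => ((hmem f).1 hf).2 σ (Subgroup.mem_top σ) x, hfin, hsep, hcomul⟩

end Comul

end Fermat.Agent.GH.N1
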